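import Mathlib
set_option autoImplicit false

open Complex Filter Finset Asymptotics
open scoped Real Topology

noncomputable section

namespace Fermat.Agent.S20.H82

/-- `ζ_N = exp (2πi/N)`. -/
def zetaN (N : ℕ) : ℂ := Complex.exp (2 * π * I / N)

lemma zetaN_pow_N (N : ℕ) [NeZero N] : zetaN N ^ N = 1 :=
  (Complex.isPrimitiveRoot_exp N (NeZero.ne N)).pow_eq_one

lemma zetaN_ne_zero (N : ℕ) : zetaN N ≠ 0 := Complex.exp_ne_zero _

lemma norm_zetaN (N : ℕ) : ‖zetaN N‖ = 1 := by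
  unfold zetaN
  rw [Complex.norm_exp]
  simp

/-- orthogonality of roots of unity, in the range we need -/
lemma sum_zetaN_pow_mul (N : ℕ) [NeZero N] {n r : ℕ} (hn : n < N) (hr : r < N) :
    ∑ i ∈ range N, (zetaN N ^ i) ^ n * ((zetaN N ^ i) ^ r)⁻¹ = if n = r then (N : ℂ) else 0 := by
  have hprim := Complex.isPrimitiveRoot_exp N (NeZero.ne N)
  split_ifs with h
  · subst h
    have : ∀ i ∈ range N, (zetaN N ^ i) ^ n * ((zetaN N ^ i) ^ n)⁻¹ = 1 := by
      intro i _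
      exact mul_inv_cancel₀ (pow_ne_zero _ (pow_ne_zero _ (zetaN_ne_zero N)))
    rw [Finset.sum_congr rfl this]; simp
  · -- geometric sum with ratio x = ζ^n / ζ^r ≠ 1
    set x : ℂ := zetaN N ^ n * (zetaN N ^ r)⁻¹ with hx
    have hterm : ∀ i ∈ range N, (zetaN N ^ i) ^ n * ((zetaN N ^ i) ^ r)⁻¹ = x ^ i := by
      intro i _
      rw [hx, mul_pow, inv_pow, ← pow_mul, ← pow_mul, ← pow_mul, ← pow_mul, mul_comm i n, mul_comm i r]
    rw [Finset.sum_congr rfl hterm]
    have hxN : x ^ N = 1 := by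
      rw [hx, mul_pow, inv_pow, ← pow_mul, ← pow_mul, mul_comm n N, mul_comm r N, pow_mul, pow_mul,
        zetaN_pow_N]; simp
    have hx1 : x ≠ 1 := by
      intro h1
      have h2 : zetaN N ^ n = zetaN N ^ r := by
        have := congrArg (· * zetaN N ^ r) h1
        simpa [hx, mul_assoc, inv_mul_cancel₀ (pow_ne_zero r (zetaN_ne_zero N))] using this
      exact h (hprim.pow_inj hn hr h2)
    have := geom_sum_eq hx1 N
    rw [this, hxN]; simp

/-- The "untwisting weight" `∑_{r<N} w^{-r}`. -/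
def untwistCoeff (N : ℕ) (w : ℂ) : ℂ := ∑ r ∈ range N, (w ^ r)⁻¹

/-- Pure analytic core: for `G` analytic at `0`, the `N`-fold untwisted average of `G` around the
circle tends to the sum of the first `N` Taylor coefficients. -/
theorem tendsto_untwist_analytic (N : ℕ) [NeZero N] {G : ℂ → ℂ} (hG : AnalyticAt ℂ G 0) :
    Tendsto (fun q : ℂ => (N : ℂ)⁻¹ * ∑ i ∈ range N,
        untwistCoeff N (zetaN N ^ i * q) * G (zetaN N ^ i * q)) (𝓝[≠] 0)
      (𝓝 (∑ r ∈ range N, (r.factorial : ℂ)⁻¹ * iteratedDeriv r G 0)) := by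
  classical
  set b : ℕ → ℂ := fun n => iteratedDeriv n G 0 / n.factorial with hb
  have hp := hG.hasFPowerSeriesAt
  set R : ℂ → ℂ := fun w => G w - ∑ n ∈ range N, b n * w ^ n with hR
  have hRO : R =O[𝓝 0] fun w => ‖w‖ ^ N := by
    have := hp.isBigO_sub_partialSum_pow N
    refine this.congr_left ?_
    intro w
    simp only [hR, zero_add, FormalMultilinearSeries.partialSum]
    congr 1
    refine Finset.sum_congr rfl fun n _ => ?_
    simp [FormalMultilinearSeries.ofScalars, hb, mul_comm]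
  obtain ⟨C, hC⟩ := hRO.bound
  have hN : (N : ℂ) ≠ 0 := Nat.cast_ne_zero.mpr (NeZero.ne N)
  -- decomposition for q ≠ 0
  have hdecomp : ∀ q : ℂ, q ≠ 0 →
      (N : ℂ)⁻¹ * ∑ i ∈ range N, untwistCoeff N (zetaN N ^ i * q) * G (zetaN N ^ i * q) =
      (∑ r ∈ range N, (r.factorial : ℂ)⁻¹ * iteratedDeriv r G 0) +
      (N : ℂ)⁻¹ * ∑ i ∈ range N, ∑ r ∈ range N, ((zetaN N ^ i * q) ^ r)⁻¹ * R (zetaN N ^ i * q) := by
    intro q hq
    have hG' : ∀ w, G w = ∑ n ∈ range N, b n * w ^ n + R w := fun w => by simp [hR]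
    have h1 : ∀ i ∈ range N, untwistCoeff N (zetaN N ^ i * q) * G (zetaN N ^ i * q) =
        (∑ r ∈ range N, ∑ n ∈ range N, b n * q ^ n * (q ^ r)⁻¹ *
            ((zetaN N ^ i) ^ n * ((zetaN N ^ i) ^ r)⁻¹)) +
        ∑ r ∈ range N, ((zetaN N ^ i * q) ^ r)⁻¹ * R (zetaN N ^ i * q) := by
      intro i _
      rw [hG' (zetaN N ^ i * q), mul_add, untwistCoeff, Finset.sum_mul, Finset.sum_mul]
      congr 1
      refine Finset.sum_congr rfl fun r _ => ?_
      rw [Finset.mul_sum]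
      refine Finset.sum_congr rfl fun n _ => ?_
      rw [mul_pow, mul_pow, mul_inv]; ring
    rw [Finset.sum_congr rfl h1, Finset.sum_add_distrib, mul_add]
    congr 1
    rw [Finset.sum_comm]
    have h2 : ∀ r ∈ range N, ∑ i ∈ range N, ∑ n ∈ range N, b n * q ^ n * (q ^ r)⁻¹ *
            ((zetaN N ^ i) ^ n * ((zetaN N ^ i) ^ r)⁻¹) = (N : ℂ) * b r := by
      intro r hr
      rw [Finset.sum_comm]
      have h3 : ∀ n ∈ range N, ∑ i ∈ range N, b n * q ^ n * (q ^ r)⁻¹ *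
            ((zetaN N ^ i) ^ n * ((zetaN N ^ i) ^ r)⁻¹) =
            if n = r then (N : ℂ) * b r else 0 := by
        intro n hn
        rw [← Finset.mul_sum, sum_zetaN_pow_mul N (Finset.mem_range.mp hn) (Finset.mem_range.mp hr)]
        split_ifs with h
        · subst h
          have : q ^ n ≠ 0 := pow_ne_zero _ hq
          field_simp
        · simp
      rw [Finset.sum_congr rfl h3, Finset.sum_ite_eq' (range N) r]
      simp [hr]
    rw [Finset.sum_congr rfl h2, ← Finset.mul_sum, ← mul_assoc, inv_mul_cancel₀ hN, one_mul]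
    refine Finset.sum_congr rfl fun r _ => ?_
    simp [hb, div_eq_inv_mul]
  -- the error term tends to zero
  have herr : Tendsto (fun q : ℂ => (N : ℂ)⁻¹ * ∑ i ∈ range N, ∑ r ∈ range N,
      ((zetaN N ^ i * q) ^ r)⁻¹ * R (zetaN N ^ i * q)) (𝓝[≠] 0) (𝓝 0) := by
    have key : ∀ i ∈ range N, ∀ r ∈ range N, Tendsto (fun q : ℂ =>
        ((zetaN N ^ i * q) ^ r)⁻¹ * R (zetaN N ^ i * q)) (𝓝[≠] 0) (𝓝 0) := by
      intro i _ r hr
      have hr' : r < N := Finset.mem_range.mp hr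
      -- bound by C * ‖q‖ ^ (N - r)
      have hcont : Tendsto (fun q : ℂ => zetaN N ^ i * q) (𝓝 0) (𝓝 0) := by
        have : Continuous (fun q : ℂ => zetaN N ^ i * q) := by fun_prop
        simpa using this.tendsto 0
      have hev : ∀ᶠ q in 𝓝[≠] (0 : ℂ), ‖((zetaN N ^ i * q) ^ r)⁻¹ * R (zetaN N ^ i * q)‖
          ≤ C * ‖q‖ ^ (N - r) := by
        have h1 := hcont.eventually hC
        filter_upwards [nhdsWithin_le_nhds h1, self_mem_nhdsWithin] with q hq hq0
        have hq0' : q ≠ 0 := hq0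
        have hnorm : ‖zetaN N ^ i * q‖ = ‖q‖ := by
          rw [norm_mul, norm_pow, norm_zetaN, one_pow, one_mul]
        rw [norm_mul, norm_inv, norm_pow, hnorm]
        have hq' : ‖R (zetaN N ^ i * q)‖ ≤ C * ‖q‖ ^ N := by
          rw [norm_pow, norm_norm, hnorm] at hq
          exact hq
        have hqpos : 0 < ‖q‖ := norm_pos_iff.mpr hq0'
        calc (‖q‖ ^ r)⁻¹ * ‖R (zetaN N ^ i * q)‖ ≤ (‖q‖ ^ r)⁻¹ * (C * ‖q‖ ^ N) := by
              gcongr
          _ = C * ‖q‖ ^ (N - r) := by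
              have : ‖q‖ ^ N = ‖q‖ ^ (N - r) * ‖q‖ ^ r := by
                rw [← pow_add, Nat.sub_add_cancel hr'.le]
              rw [this]
              field_simp
      have hlim : Tendsto (fun q : ℂ => C * ‖q‖ ^ (N - r)) (𝓝[≠] 0) (𝓝 0) := by
        have : Tendsto (fun q : ℂ => C * ‖q‖ ^ (N - r)) (𝓝 0) (𝓝 (C * ‖(0:ℂ)‖ ^ (N - r))) := by
          have : Continuous (fun q : ℂ => C * ‖q‖ ^ (N - r)) := by fun_prop
          exact this.tendsto 0
        have hne : N - r ≠ 0 := by omega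
        simp only [norm_zero, zero_pow hne, mul_zero] at this
        exact this.mono_left nhdsWithin_le_nhds
      exact squeeze_zero_norm' hev hlim
    have : Tendsto (fun q : ℂ => ∑ i ∈ range N, ∑ r ∈ range N,
      ((zetaN N ^ i * q) ^ r)⁻¹ * R (zetaN N ^ i * q)) (𝓝[≠] 0) (𝓝 0) := by
      have := tendsto_finsetSum (range N) fun i hi =>
        tendsto_finsetSum (range N) fun r hr => key i hi r hr
      simpa using this
    simpa using this.const_mul ((N : ℂ)⁻¹)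
  have hmain : Tendsto (fun q : ℂ => (∑ r ∈ range N, (r.factorial : ℂ)⁻¹ * iteratedDeriv r G 0) +
      (N : ℂ)⁻¹ * ∑ i ∈ range N, ∑ r ∈ range N, ((zetaN N ^ i * q) ^ r)⁻¹ * R (zetaN N ^ i * q))
      (𝓝[≠] 0) (𝓝 (∑ r ∈ range N, (r.factorial : ℂ)⁻¹ * iteratedDeriv r G 0)) := by
    simpa using tendsto_const_nhds.add herr
  refine hmain.congr' ?_
  filter_upwards [self_mem_nhdsWithin] with q hq
  exact (hdecomp q hq).symm

/-- Bound for the untwisting weight. -/
lemma norm_untwistCoeff_le (N : ℕ) [NeZero N] {w : ℂ} (hw : ‖w‖ ≤ 1) (hw0 : w ≠ 0) :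
    ‖untwistCoeff N w‖ ≤ N * (‖w‖⁻¹) ^ (N - 1) := by
  have hpos : 0 < ‖w‖ := norm_pos_iff.mpr hw0
  have h1 : 1 ≤ ‖w‖⁻¹ := (one_le_inv₀ hpos).mpr hw
  unfold untwistCoeff
  calc ‖∑ r ∈ range N, (w ^ r)⁻¹‖ ≤ ∑ r ∈ range N, ‖(w ^ r)⁻¹‖ := norm_sum_le _ _
    _ ≤ ∑ _r ∈ range N, (‖w‖⁻¹) ^ (N - 1) := by
        refine Finset.sum_le_sum fun r hr => ?_
        rw [norm_inv, norm_pow, ← inv_pow]
        exact pow_le_pow_right₀ h1 (by have := Finset.mem_range.mp hr; omega)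
    _ = N * (‖w‖⁻¹) ^ (N - 1) := by simp

end Fermat.Agent.S20.H82
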