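/-
S20 package G2 (helper82): the jet vector is the limit of the untwisted value vector.
-/
import Fermat.Agent.S20.Defs
import Fermat.Agent.S20.H82.Untwist
set_option autoImplicit false

open UpperHalfPlane ModularForm CongruenceSubgroup Matrix.SpecialLinearGroup Filter Finset
open scoped MatrixGroups ModularForm Manifold Topology Real

noncomputable section

namespace Fermat.Agent.S20.H82

open Fermat.Agent.S20

variable {N : ℕ} [NeZero N] {k : ℤ}

local notation "𝕢" => Function.Periodic.qParam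

/-- The untwisting matrix `E(τ) = D(τ)⁻¹` on vectors indexed by cosets. -/
def untwistMatrix (N : ℕ) (τ : ℍ) : Matrix (X N) (X N) ℂ :=
  Matrix.of fun c c' => (N : ℂ)⁻¹ * ∑ i ∈ range N,
    untwistCoeff N (zetaN N ^ i * 𝕢 (N : ℝ) τ) *
      (if c' = (ModularGroup.T ^ i)⁻¹ • c then 1 else 0)

omit [NeZero N] in
lemma qParam_T_pow_smul (i : ℕ) (τ : ℍ) :
    𝕢 (N : ℝ) ((ModularGroup.T ^ i • τ : ℍ) : ℂ) = zetaN N ^ i * 𝕢 (N : ℝ) τ := by
  have h := ModularGroup.coe_T_zpow_smul_eq (z := τ) (n := (i : ℤ))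
  rw [zpow_natCast] at h
  rw [h, Function.Periodic.qParam, Function.Periodic.qParam, zetaN, ← Complex.exp_nat_mul,
    ← Complex.exp_add]
  congr 1
  push_cast
  ring

omit [NeZero N] in
lemma cosetFun_T_pow_inv_smul {F : Type*} [FunLike F ℍ ℂ] [SlashInvariantFormClass F (Γ0 N) k]
    (f : F) (i : ℕ) (c : X N) (τ : ℍ) :
    cosetFun f ((ModularGroup.T ^ i)⁻¹ • c) τ = cosetFun f c (ModularGroup.T ^ i • τ) := by
  rw [cosetFun_smul_apply]
  have : denom ((ModularGroup.T ^ i : SL(2, ℤ)) : GL (Fin 2) ℝ) τ = 1 := by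
    have h := ModularGroup.coe_T_zpow (i : ℤ)
    rw [zpow_natCast] at h
    rw [ModularGroup.denom_apply]
    have h10 := congrFun (congrFun h 1) 0
    have h11 := congrFun (congrFun h 1) 1
    simp only [Matrix.of_apply, Matrix.cons_val', Matrix.cons_val_zero, Matrix.cons_val_one,
      Matrix.cons_val_fin_one] at h10 h11
    rw [h10, h11]
    simp
  rw [this, one_zpow, one_mul]

omit [NeZero N] in
/-- `T ^ N` acts trivially on the coset space (private copy of C1, to stay independent of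
`Basic.lean`). -/
lemma T_pow_N_inv_smul' (c : X N) : (ModularGroup.T ^ N)⁻¹ • c = c := by
  induction c using QuotientGroup.induction_on with
  | H g =>
    rw [MulAction.Quotient.smul_mk, QuotientGroup.eq]
    have hT : ModularGroup.T ^ N ∈ Gamma N := by
      have := ModularGroup_T_pow_mem_Gamma (N : ℤ) (N : ℤ) dvd_rfl
      simpa using this
    have hconj : g⁻¹ * ModularGroup.T ^ N * g ∈ Gamma N := by
      have := (Gamma_normal N).conj_mem _ hT g⁻¹
      simpa using this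
    have : ((ModularGroup.T ^ N)⁻¹ • g)⁻¹ * g = g⁻¹ * ModularGroup.T ^ N * g := by
      rw [smul_eq_mul]; group
    rw [this]
    exact Gamma0_mem.mpr (Gamma_mem.mp hconj).2.2.1

omit [NeZero N] in
/-- Every coset translate has period `N` (private copy of C3). -/
lemma cosetFun_periodic' {F : Type*} [FunLike F ℍ ℂ] [SlashInvariantFormClass F (Γ0 N) k]
    (f : F) (c : X N) : Function.Periodic (cosetFun f c ∘ ofComplex) (N : ℝ) := by
  intro w
  by_cases hw : 0 < w.im
  · have hw' : 0 < (w + (N : ℝ)).im := by simpa using hw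
    simp only [Function.comp_apply, ofComplex_apply_of_im_pos hw', ofComplex_apply_of_im_pos hw]
    have hT : (⟨w + (N : ℝ), hw'⟩ : ℍ) = ModularGroup.T ^ N • (⟨w, hw⟩ : ℍ) := by
      ext
      have h := ModularGroup.coe_T_zpow_smul_eq (z := (⟨w, hw⟩ : ℍ)) (n := (N : ℤ))
      rw [zpow_natCast] at h
      rw [h]
      simp
    rw [hT, ← cosetFun_T_pow_inv_smul, T_pow_N_inv_smul']
  · have hw0 : w.im ≤ 0 := not_lt.mp hw
    have hw' : (w + ((N : ℝ) : ℂ)).im ≤ 0 := by simpa using hw0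
    simp only [Function.comp_apply]
    rw [ofComplex_apply_of_im_nonpos hw', ofComplex_apply_of_im_nonpos hw0]

lemma untwistMatrix_mulVec_valVec {F : Type*} [FunLike F ℍ ℂ] [ModularFormClass F (Γ0 N) k]
    (f : F) (τ : ℍ) (c : X N) :
    (untwistMatrix N τ).mulVec (valVec f τ) c = (N : ℂ)⁻¹ * ∑ i ∈ range N,
      untwistCoeff N (zetaN N ^ i * 𝕢 (N : ℝ) τ) *
        cuspFunction (N : ℝ) (cosetFun f c) (zetaN N ^ i * 𝕢 (N : ℝ) τ) := by
  have hN : (0 : ℝ) < N := Nat.cast_pos.mpr (NeZero.pos N)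
  simp only [Matrix.mulVec, dotProduct, untwistMatrix, Matrix.of_apply, valVec]
  simp_rw [Finset.mul_sum, Finset.sum_mul]
  rw [Finset.sum_comm]
  refine Finset.sum_congr rfl fun i _ => ?_
  simp_rw [mul_assoc, ite_mul, one_mul, zero_mul, mul_ite, mul_zero]
  rw [Finset.sum_ite_eq' Finset.univ ((ModularGroup.T ^ i)⁻¹ • c)]
  simp only [Finset.mem_univ, if_true]
  rw [cosetFun_T_pow_inv_smul, ← qParam_T_pow_smul,
    UpperHalfPlane.eq_cuspFunction _ hN.ne' (cosetFun_periodic' f c)]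

/-- **Jet limit.** The untwisted value vector tends to the jet vector at `i∞`. -/
theorem tendsto_untwist_valVec {F : Type*} [FunLike F ℍ ℂ] [ModularFormClass F (Γ0 N) k] (f : F) :
    Tendsto (fun τ : ℍ => (untwistMatrix N τ).mulVec (valVec f τ)) atImInfty (𝓝 (jetVec f)) := by
  have hN : (0 : ℝ) < N := Nat.cast_pos.mpr (NeZero.pos N)
  refine tendsto_pi_nhds.mpr fun c => ?_
  have hG : AnalyticAt ℂ (cuspFunction (N : ℝ) (cosetFun f c)) 0 :=
    UpperHalfPlane.analyticAt_cuspFunction_zero hN (cosetFun_periodic' f c)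
      (mdifferentiable_cosetFun f c) (isBoundedAtImInfty_cosetFun f c)
  have h1 := tendsto_untwist_analytic N hG
  have h2 : Tendsto (fun τ : ℍ => 𝕢 (N : ℝ) τ) atImInfty (𝓝[≠] 0) :=
    (Function.Periodic.qParam_tendsto hN).comp tendsto_coe_atImInfty
  have h3 := h1.comp h2
  have hj : jetVec f c = ∑ r ∈ range N, (r.factorial : ℂ)⁻¹ *
      iteratedDeriv r (cuspFunction (N : ℝ) (cosetFun f c)) 0 := by
    simp only [jetVec, qExpansion_coeff]
  rw [hj]
  refine h3.congr fun τ => ?_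
  simp only [Function.comp_apply]
  rw [untwistMatrix_mulVec_valVec]

/-- Entry bound for the untwisting matrix. -/
theorem norm_untwistMatrix_le (τ : ℍ) (c c' : X N) :
    ‖untwistMatrix N τ c c'‖ ≤ N * (‖𝕢 (N : ℝ) (τ : ℂ)‖⁻¹) ^ (N - 1) := by
  have hN : (0 : ℝ) < N := Nat.cast_pos.mpr (NeZero.pos N)
  have hq0 : 𝕢 (N : ℝ) (τ : ℂ) ≠ 0 := Function.Periodic.qParam_ne_zero _
  have hq1 : ‖𝕢 (N : ℝ) (τ : ℂ)‖ ≤ 1 := (Function.Periodic.norm_qParam_lt_one hN τ.im_pos).le
  set B : ℝ := (‖𝕢 (N : ℝ) (τ : ℂ)‖⁻¹) ^ (N - 1) with hB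
  have hterm : ∀ i ∈ range N, ‖untwistCoeff N (zetaN N ^ i * 𝕢 (N : ℝ) τ) *
      (if c' = (ModularGroup.T ^ i)⁻¹ • c then (1 : ℂ) else 0)‖ ≤ N * B := by
    intro i _
    have hnorm : ‖zetaN N ^ i * 𝕢 (N : ℝ) (τ : ℂ)‖ = ‖𝕢 (N : ℝ) (τ : ℂ)‖ := by
      rw [norm_mul, norm_pow, norm_zetaN, one_pow, one_mul]
    have h1 := norm_untwistCoeff_le N (w := zetaN N ^ i * 𝕢 (N : ℝ) (τ : ℂ)) (by rw [hnorm]; exact hq1)
      (mul_ne_zero (pow_ne_zero _ (zetaN_ne_zero N)) hq0)
    rw [hnorm] at h1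
    have hNB : (0 : ℝ) ≤ N * B := le_trans (norm_nonneg _) h1
    split_ifs
    · rw [mul_one]; exact h1
    · rw [mul_zero, norm_zero]; exact hNB
  simp only [untwistMatrix, Matrix.of_apply]
  rw [norm_mul, norm_inv, Complex.norm_natCast]
  calc (N : ℝ)⁻¹ * ‖∑ i ∈ range N, untwistCoeff N (zetaN N ^ i * 𝕢 (N : ℝ) τ) *
        (if c' = (ModularGroup.T ^ i)⁻¹ • c then (1 : ℂ) else 0)‖
      ≤ (N : ℝ)⁻¹ * ∑ _i ∈ range N, ((N : ℝ) * B) := by
        gcongr
        exact (norm_sum_le _ _).trans (Finset.sum_le_sum hterm)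
    _ = N * B := by
        simp only [Finset.sum_const, Finset.card_range, nsmul_eq_mul]
        field_simp

end Fermat.Agent.S20.H82

namespace Fermat.Agent.S20

/-- J2 (exact statement of the S20 skeleton `Jet.lean`). The jet operator `A(τ)`: it maps value
vectors to vectors converging to the jet, and its entries are bounded by `N |q_N(τ)|^(-(N-1))`. -/
theorem H82.exists_jetOp' (N : ℕ) [NeZero N] : ∃ A : ℍ → Matrix (X N) (X N) ℂ,
    (∀ (k : ℤ) (f : ModularForm (Γ0 N) k),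
      Tendsto (fun τ : ℍ => (A τ).mulVec (valVec f τ)) atImInfty (𝓝 (jetVec f))) ∧
    ∀ (τ : ℍ) (c c' : X N), ‖A τ c c'‖ ≤ N * (‖Function.Periodic.qParam (N : ℝ) (τ : ℂ)‖⁻¹) ^ (N - 1) :=
  ⟨H82.untwistMatrix N, fun _ f => H82.tendsto_untwist_valVec f, H82.norm_untwistMatrix_le⟩

end Fermat.Agent.S20
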