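/-
S20 package G2 (helper82): the dual frame `Δ • Φ⁻¹` of a frame consists of cusp forms.
-/
import Fermat.Agent.S20.H82.JetLimit
set_option autoImplicit false

open UpperHalfPlane ModularForm CongruenceSubgroup Matrix.SpecialLinearGroup Filter Finset
open scoped MatrixGroups ModularForm Manifold Topology Real

noncomputable section

namespace Fermat.Agent.S20.H82

open Fermat.Agent.S20

variable {N : ℕ} [NeZero N] {a : X N → ℤ} (F : ∀ x, ModularForm (Γ0 N) (a x))

local notation "𝕢" => Function.Periodic.qParam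
local notation "Δ" => ModularForm.discriminant

/-- The jet matrix of a family of forms indexed by the cosets. -/
def jetMatrix : Matrix (X N) (X N) ℂ := Matrix.of fun c x => jetVec (F x) c

lemma tendsto_untwist_mul_frameMatrix :
    Tendsto (fun τ : ℍ => untwistMatrix N τ * frameMatrix F τ) atImInfty (𝓝 (jetMatrix F)) := by
  refine tendsto_pi_nhds.mpr fun c => tendsto_pi_nhds.mpr fun x => ?_
  have h := (tendsto_pi_nhds.mp (tendsto_untwist_valVec (F x))) c
  refine h.congr fun τ => ?_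
  simp [Matrix.mul_apply, Matrix.mulVec, dotProduct, frameMatrix, valVec]

omit [NeZero N] in
lemma discriminant_bound_qParam_pow [NeZero N] :
    ∃ C : ℝ, ∀ᶠ τ : ℍ in atImInfty, ‖Δ τ‖ ≤ C * ‖𝕢 (N : ℝ) (τ : ℂ)‖ ^ N := by
  have h := CuspFormClass.exp_decay_atImInfty (h := 1) CuspForm.discriminant one_pos
    one_mem_strictPeriods_SL
  obtain ⟨C, hC⟩ := h.bound
  refine ⟨C, hC.mono fun τ hτ => ?_⟩
  have hN : (N : ℝ) ≠ 0 := Nat.cast_ne_zero.mpr (NeZero.ne N)
  have hpow : ‖𝕢 (N : ℝ) (τ : ℂ)‖ ^ N = Real.exp (-2 * π * τ.im / 1) := by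
    rw [Function.Periodic.norm_qParam, ← Real.exp_nat_mul]
    congr 1
    simp only [UpperHalfPlane.coe_im]
    field_simp
  rw [hpow]
  simpa [Real.norm_eq_abs, abs_of_pos (Real.exp_pos _)] using hτ

lemma tendsto_discriminant_mul_untwistMatrix (c' c : X N) :
    Tendsto (fun τ : ℍ => Δ τ * untwistMatrix N τ c' c) atImInfty (𝓝 0) := by
  obtain ⟨C, hC⟩ := discriminant_bound_qParam_pow (N := N)
  have hN : (0 : ℝ) < N := Nat.cast_pos.mpr (NeZero.pos N)
  have hq : Tendsto (fun τ : ℍ => C * N * ‖𝕢 (N : ℝ) (τ : ℂ)‖) atImInfty (𝓝 0) := by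
    have := (qParam_tendsto_atImInfty hN).norm
    simpa using this.const_mul (C * N)
  refine squeeze_zero_norm' ?_ hq
  filter_upwards [hC] with τ hτ
  have hq0 : 0 < ‖𝕢 (N : ℝ) (τ : ℂ)‖ := norm_pos_iff.mpr (Function.Periodic.qParam_ne_zero _)
  rw [norm_mul]
  calc ‖Δ τ‖ * ‖untwistMatrix N τ c' c‖
      ≤ (C * ‖𝕢 (N : ℝ) (τ : ℂ)‖ ^ N) * (N * (‖𝕢 (N : ℝ) (τ : ℂ)‖⁻¹) ^ (N - 1)) :=
        mul_le_mul hτ (norm_untwistMatrix_le τ c' c) (norm_nonneg _)
          ((norm_nonneg _).trans hτ)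
    _ = C * N * ‖𝕢 (N : ℝ) (τ : ℂ)‖ := by
        have : ‖𝕢 (N : ℝ) (τ : ℂ)‖ ^ N = ‖𝕢 (N : ℝ) (τ : ℂ)‖ ^ (N - 1) * ‖𝕢 (N : ℝ) (τ : ℂ)‖ := by
          rw [← pow_succ, Nat.sub_add_cancel (NeZero.pos N)]
        rw [this, inv_pow]
        field_simp

/-- **Decay.** If the jet matrix is invertible, every entry of `Δ • Φ⁻¹` tends to `0` at `i∞`. -/
theorem tendsto_discriminant_mul_inv_frameMatrix (hJ : (jetMatrix F).det ≠ 0) (x c : X N) :
    Tendsto (fun τ : ℍ => Δ τ * (frameMatrix F τ)⁻¹ x c) atImInfty (𝓝 0) := by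
  have hAΦ := tendsto_untwist_mul_frameMatrix F
  have hinv : Tendsto (fun τ : ℍ => (untwistMatrix N τ * frameMatrix F τ)⁻¹) atImInfty
      (𝓝 (jetMatrix F)⁻¹) := by
    have hc : ContinuousAt Ring.inverse (jetMatrix F).det := by
      have : (Ring.inverse : ℂ → ℂ) = Inv.inv := Ring.inverse_eq_inv'
      rw [this]; exact continuousAt_inv₀ hJ
    exact (continuousAt_matrix_inv _ hc).tendsto.comp hAΦ
  have hdet : ∀ᶠ τ : ℍ in atImInfty, (untwistMatrix N τ * frameMatrix F τ).det ≠ 0 := by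
    have hcont : Continuous (fun M : Matrix (X N) (X N) ℂ => M.det) := continuous_id.matrix_det
    exact (hcont.continuousAt.tendsto.comp hAΦ).eventually_ne hJ
  have hsum : Tendsto (fun τ : ℍ => ∑ c', (untwistMatrix N τ * frameMatrix F τ)⁻¹ x c' *
      (Δ τ * untwistMatrix N τ c' c)) atImInfty (𝓝 0) := by
    have key : ∀ c' ∈ (Finset.univ : Finset (X N)), Tendsto (fun τ : ℍ =>
        (untwistMatrix N τ * frameMatrix F τ)⁻¹ x c' * (Δ τ * untwistMatrix N τ c' c)) atImInfty
        (𝓝 ((jetMatrix F)⁻¹ x c' * 0)) := by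
      intro c' _
      exact ((tendsto_pi_nhds.mp ((tendsto_pi_nhds.mp hinv) x)) c').mul
        (tendsto_discriminant_mul_untwistMatrix c' c)
    simpa using tendsto_finsetSum _ key
  refine hsum.congr' ?_
  filter_upwards [hdet] with τ hτ
  have hinv_eq : (frameMatrix F τ)⁻¹ =
      (untwistMatrix N τ * frameMatrix F τ)⁻¹ * untwistMatrix N τ := by
    apply Matrix.inv_eq_left_inv
    rw [Matrix.mul_assoc]
    exact Matrix.nonsing_inv_mul _ (isUnit_iff_ne_zero.mpr hτ)
  rw [hinv_eq, Matrix.mul_apply, Finset.mul_sum]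
  exact Finset.sum_congr rfl fun c' _ => by ring

/-! ### Equivariance of the inverse frame matrix -/

omit [NeZero N] in
lemma frameMatrix_smul [NeZero N] (g : SL(2, ℤ)) (τ : ℍ) (c x : X N) :
    frameMatrix F (g • τ) c x = denom g τ ^ (a x) * frameMatrix F τ (g⁻¹ • c) x := by
  simp only [frameMatrix, Matrix.of_apply]
  exact cosetFun_smul_apply (F x) g c τ

lemma inv_frameMatrix_smul (hdet : ∀ τ, (frameMatrix F τ).det ≠ 0) (g : SL(2, ℤ)) (τ : ℍ)
    (x c : X N) :
    (frameMatrix F (g • τ))⁻¹ x c =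
      (denom g τ ^ (a x))⁻¹ * (frameMatrix F τ)⁻¹ x (g⁻¹ • c) := by
  have hd : denom g τ ≠ 0 := denom_ne_zero g τ
  set B : Matrix (X N) (X N) ℂ :=
    Matrix.of fun x c => (denom g τ ^ (a x))⁻¹ * (frameMatrix F τ)⁻¹ x (g⁻¹ • c) with hB
  have h : (frameMatrix F (g • τ))⁻¹ = B := by
    apply Matrix.inv_eq_left_inv
    ext x y
    rw [Matrix.mul_apply]
    simp only [hB, Matrix.of_apply, frameMatrix_smul]
    have hreindex : ∑ c, (denom g τ ^ (a x))⁻¹ * (frameMatrix F τ)⁻¹ x (g⁻¹ • c) *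
          (denom g τ ^ (a y) * frameMatrix F τ (g⁻¹ • c) y)
        = (denom g τ ^ (a x))⁻¹ * denom g τ ^ (a y) *
          ∑ c, (frameMatrix F τ)⁻¹ x c * frameMatrix F τ c y := by
      rw [Finset.mul_sum]
      rw [← Equiv.sum_comp (MulAction.toPerm g⁻¹ : Equiv.Perm (X N))
        (fun c => (denom g τ ^ (a x))⁻¹ * denom g τ ^ (a y) *
          ((frameMatrix F τ)⁻¹ x c * frameMatrix F τ c y))]
      refine Finset.sum_congr rfl fun c _ => ?_
      simp only [MulAction.toPerm_apply]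
      ring
    rw [hreindex, ← Matrix.mul_apply, Matrix.nonsing_inv_mul _ (isUnit_iff_ne_zero.mpr (hdet τ))]
    by_cases hxy : x = y
    · subst hxy
      simp [inv_mul_cancel₀ (zpow_ne_zero _ hd)]
    · simp [Matrix.one_apply_ne hxy]
  rw [h, hB, Matrix.of_apply]

/-- The dual functions: the entries of `Δ • Φ⁻¹`. -/
def dualFun (x c : X N) (τ : ℍ) : ℂ := Δ τ * (frameMatrix F τ)⁻¹ x c

lemma discriminant_smul (g : SL(2, ℤ)) (τ : ℍ) : Δ (g • τ) = denom g τ ^ (12 : ℤ) * Δ τ := by
  have h := congrFun (SlashInvariantForm.slash_action_generators_SL2Z discriminant_S_invariant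
    discriminant_T_invariant g) τ
  rw [SL_slash_apply] at h
  have hd : denom g τ ≠ 0 := denom_ne_zero g τ
  rw [← h, zpow_neg]
  field_simp

lemma dualFun_smul (hdet : ∀ τ, (frameMatrix F τ).det ≠ 0) (g : SL(2, ℤ)) (x c : X N) (τ : ℍ) :
    dualFun F x c (g • τ) = denom g τ ^ (12 - a x) * dualFun F x (g⁻¹ • c) τ := by
  unfold dualFun
  rw [discriminant_smul, inv_frameMatrix_smul F hdet, zpow_sub₀ (denom_ne_zero g τ)]
  ring

lemma dualFun_slash (hdet : ∀ τ, (frameMatrix F τ).det ≠ 0) (g : SL(2, ℤ)) (x c : X N) :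
    dualFun F x c ∣[12 - a x] g = dualFun F x (g⁻¹ • c) := by
  ext τ
  rw [SL_slash_apply, dualFun_smul F hdet, zpow_neg]
  have hd : denom g τ ^ (12 - a x) ≠ 0 := zpow_ne_zero _ (denom_ne_zero g τ)
  field_simp

/-! ### Holomorphy -/

omit [NeZero N] in
/-- The determinant of a matrix of holomorphic functions on `ℍ` is holomorphic. -/
lemma mdiff_det {n : Type*} [Fintype n] [DecidableEq n] (M : ℍ → Matrix n n ℂ)
    (hM : ∀ i j, MDiff (fun τ => M τ i j)) : MDiff (fun τ => (M τ).det) := by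
  rw [UpperHalfPlane.mdifferentiable_iff]
  have h : ∀ i j, DifferentiableOn ℂ ((fun τ => M τ i j) ∘ ofComplex) {z | 0 < z.im} :=
    fun i j => UpperHalfPlane.mdifferentiable_iff.mp (hM i j)
  have heq : ((fun τ => (M τ).det) ∘ ofComplex) = fun z => ∑ σ : Equiv.Perm n,
      ((Equiv.Perm.sign σ : ℤ) : ℂ) * ∏ i, ((fun τ => M τ (σ i) i) ∘ ofComplex) z := by
    funext z
    simp only [Function.comp_apply, Matrix.det_apply]
    refine Finset.sum_congr rfl fun σ _ => ?_
    rw [Units.smul_def, zsmul_eq_mul]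
  rw [heq]
  exact DifferentiableOn.fun_sum fun σ _ =>
    (DifferentiableOn.fun_finsetProd fun i _ => h (σ i) i).const_mul _

lemma mdiff_frameMatrix_entry (c x : X N) : MDiff (fun τ => frameMatrix F τ c x) := by
  simp only [frameMatrix, Matrix.of_apply]
  exact mdifferentiable_cosetFun (F x) c

lemma mdiff_dualFun (hdet : ∀ τ, (frameMatrix F τ).det ≠ 0) (x c : X N) :
    MDiff (dualFun F x c) := by
  -- the entries of the inverse are `det⁻¹ * adjugate`
  have hdetM : MDiff (fun τ => (frameMatrix F τ).det) :=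
    mdiff_det _ (mdiff_frameMatrix_entry F)
  have hadj : MDiff (fun τ => (frameMatrix F τ).adjugate x c) := by
    have : (fun τ => (frameMatrix F τ).adjugate x c) =
        fun τ => ((frameMatrix F τ).updateRow c (Pi.single x 1)).det := by
      funext τ; rw [Matrix.adjugate_apply]
    rw [this]
    refine mdiff_det _ fun i j => ?_
    by_cases hi : i = c
    · subst hi
      simp only [Matrix.updateRow_self]
      exact mdifferentiable_const
    · simp only [Matrix.updateRow_ne hi]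
      exact mdiff_frameMatrix_entry F i j
  have hΔ : MDiff Δ := CuspForm.discriminant.holo'
  have heq : dualFun F x c =
      fun τ => Δ τ * (((frameMatrix F τ).det)⁻¹ * (frameMatrix F τ).adjugate x c) := by
    funext τ
    simp only [dualFun, Matrix.inv_def, Ring.inverse_eq_inv', Matrix.smul_apply, smul_eq_mul]
  rw [heq, UpperHalfPlane.mdifferentiable_iff]
  have h1 := UpperHalfPlane.mdifferentiable_iff.mp hdetM
  have h2 := UpperHalfPlane.mdifferentiable_iff.mp hadj
  have h3 := UpperHalfPlane.mdifferentiable_iff.mp hΔ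
  have h1' : DifferentiableOn ℂ (fun z => (((fun τ => (frameMatrix F τ).det) ∘ ofComplex) z)⁻¹)
      {z | 0 < z.im} := h1.inv fun z _ => hdet _
  exact h3.mul (h1'.mul h2)

/-! ### The dual frame -/

/-- The dual frame: cusp forms of weights `12 - a x` whose coset translates are the entries of
`Δ • Φ⁻¹`. -/
def dualForm (hdet : ∀ τ, (frameMatrix F τ).det ≠ 0) (hJ : (jetMatrix F).det ≠ 0) (x : X N) :
    CuspForm (Γ0 N) (12 - a x) where
  toFun := dualFun F x (QuotientGroup.mk 1)
  slash_action_eq' A hA := by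
    obtain ⟨γ, hγ, rfl⟩ := hA
    have h := dualFun_slash F hdet γ x (QuotientGroup.mk 1)
    have hfix : γ⁻¹ • (QuotientGroup.mk 1 : X N) = QuotientGroup.mk 1 := by
      rw [MulAction.Quotient.smul_mk, QuotientGroup.eq]
      simpa using hγ
    rw [hfix] at h
    simpa [SL_slash, mapGL] using h
  holo' := mdiff_dualFun F hdet x _
  zero_at_cusps' {c} hc := by
    rw [Subgroup.IsArithmetic.isCusp_iff_isCusp_SL2Z] at hc
    rw [OnePoint.isZeroAt_iff_forall_SL2Z hc]
    intro γ _
    rw [dualFun_slash F hdet]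
    exact tendsto_discriminant_mul_inv_frameMatrix F hJ x _

lemma cosetFun_dualForm (hdet : ∀ τ, (frameMatrix F τ).det ≠ 0) (hJ : (jetMatrix F).det ≠ 0)
    (x c : X N) : cosetFun (dualForm F hdet hJ x) c = dualFun F x c := by
  induction c using QuotientGroup.induction_on with
  | H g =>
    rw [cosetFun_mk]
    show dualFun F x (QuotientGroup.mk 1) ∣[12 - a x] g⁻¹ = _
    rw [dualFun_slash F hdet, inv_inv, MulAction.Quotient.smul_mk, smul_eq_mul, mul_one]

/-- **G2, core form.** A family with everywhere invertible frame matrix and invertible jet matrix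
has a dual frame of cusp forms. -/
theorem exists_dual_frame_of_jet (hdet : ∀ τ, (frameMatrix F τ).det ≠ 0)
    (hJ : (jetMatrix F).det ≠ 0) :
    ∃ G : ∀ x, CuspForm (Γ0 N) (12 - a x),
      (∀ (x y : X N) (τ : ℍ), ∑ c, cosetFun (G x) c τ * cosetFun (F y) c τ =
        if x = y then Δ τ else 0) ∧
      (∀ (c c' : X N) (τ : ℍ), ∑ x, cosetFun (F x) c τ * cosetFun (G x) c' τ =
        if c = c' then Δ τ else 0) := by
  refine ⟨dualForm F hdet hJ, fun x y τ => ?_, fun c c' τ => ?_⟩
  · simp only [cosetFun_dualForm, dualFun]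
    have h : ∑ c, Δ τ * (frameMatrix F τ)⁻¹ x c * cosetFun (F y) c τ =
        Δ τ * ((frameMatrix F τ)⁻¹ * frameMatrix F τ) x y := by
      rw [Matrix.mul_apply, Finset.mul_sum]
      refine Finset.sum_congr rfl fun c _ => ?_
      simp [frameMatrix, mul_assoc]
    rw [h, Matrix.nonsing_inv_mul _ (isUnit_iff_ne_zero.mpr (hdet τ)), Matrix.one_apply]
    split_ifs <;> simp
  · simp only [cosetFun_dualForm, dualFun]
    have h : ∑ x, cosetFun (F x) c τ * (Δ τ * (frameMatrix F τ)⁻¹ x c') =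
        Δ τ * (frameMatrix F τ * (frameMatrix F τ)⁻¹) c c' := by
      rw [Matrix.mul_apply, Finset.mul_sum]
      refine Finset.sum_congr rfl fun x _ => ?_
      simp [frameMatrix]
      ring
    rw [h, Matrix.mul_nonsing_inv _ (isUnit_iff_ne_zero.mpr (hdet τ)), Matrix.one_apply]
    split_ifs <;> simp

end Fermat.Agent.S20.H82
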