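/-
S20 package G2 (helper82): adapters turning jet information into the hypotheses of
`exists_dual_frame_of_jet`, and the span of the limit vectors of a frame.
-/
import Fermat.Agent.S20.H82.DualFrame
set_option autoImplicit false

open UpperHalfPlane ModularForm CongruenceSubgroup Matrix.SpecialLinearGroup Filter Finset
open scoped MatrixGroups ModularForm Manifold Topology Real

noncomputable section

namespace Fermat.Agent.S20.H82

open Fermat.Agent.S20

variable {N : ℕ} [NeZero N] {a : X N → ℤ} (F : ∀ x, ModularForm (Γ0 N) (a x))

/-- If the jets of the family are linearly independent, the jet matrix is invertible. -/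
theorem jetMatrix_det_ne_zero_of_linearIndependent
    (h : LinearIndependent ℂ (fun x => jetVec (F x))) : (jetMatrix F).det ≠ 0 := by
  have hcol : LinearIndependent ℂ (jetMatrix F).col := by
    have : (jetMatrix F).col = fun x => jetVec (F x) := by
      funext x c
      simp [jetMatrix, Matrix.col]
    rw [this]; exact h
  have hunit := Matrix.linearIndependent_cols_iff_isUnit.mp hcol
  exact ((Matrix.isUnit_iff_isUnit_det _).mp hunit).ne_zero

/-- If the jets of the family span everything, the jet matrix is invertible. -/
theorem jetMatrix_det_ne_zero_of_span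
    (h : Submodule.span ℂ (Set.range fun x => jetVec (F x)) = ⊤) : (jetMatrix F).det ≠ 0 := by
  refine jetMatrix_det_ne_zero_of_linearIndependent F ?_
  refine linearIndependent_of_top_le_span_of_card_eq_finrank h.ge ?_
  rw [Module.finrank_fintype_fun_eq_card]

/-- If jets of arbitrary forms span everything and jets of forms are combinations of the jets of
the family, then the jets of the family span everything. -/
theorem span_jetVec_of_gen
    (hspan : Submodule.span ℂ {w : X N → ℂ | ∃ (k : ℤ) (f : ModularForm (Γ0 N) k), w = jetVec f} = ⊤)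
    (hgen : ∀ (k : ℤ) (f : ModularForm (Γ0 N) k), ∃ s : X N → ℂ,
      jetVec f = ∑ x, s x • jetVec (F x)) :
    Submodule.span ℂ (Set.range fun x => jetVec (F x)) = ⊤ := by
  rw [eq_top_iff, ← hspan]
  refine Submodule.span_le.mpr ?_
  rintro w ⟨k, f, rfl⟩
  obtain ⟨s, hs⟩ := hgen k f
  rw [hs]
  exact Submodule.sum_mem _ fun x _ =>
    Submodule.smul_mem _ _ (Submodule.subset_span ⟨x, rfl⟩)

/-- If the jets of the family are linearly independent, they span everything. -/
theorem span_jetVec_of_linearIndependent
    (h : LinearIndependent ℂ (fun x => jetVec (F x))) :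
    Submodule.span ℂ (Set.range fun x => jetVec (F x)) = ⊤ :=
  h.span_eq_top_of_card_eq_finrank' (by rw [Module.finrank_fintype_fun_eq_card])

/-- The averaging operator over the translations `T ^ m`, `m < N`. -/
def avgOp (N : ℕ) : (X N → ℂ) →ₗ[ℂ] (X N → ℂ) where
  toFun w := fun c => (N : ℂ)⁻¹ * ∑ m ∈ range N, w (ModularGroup.T ^ m • c)
  map_add' w w' := by
    funext c
    simp only [Pi.add_apply, Finset.sum_add_distrib, mul_add]
  map_smul' r w := by
    funext c
    simp only [Pi.smul_apply, smul_eq_mul, RingHom.id_apply, ← Finset.mul_sum]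
    ring

omit [NeZero N] in
lemma avgOp_apply (w : X N → ℂ) (c : X N) :
    avgOp N w c = (N : ℂ)⁻¹ * ∑ m ∈ range N, w (ModularGroup.T ^ m • c) := rfl

lemma avgOp_of_mem_invOf {v : X N → ℂ} (hv : v ∈ invOf N ModularGroup.T) : avgOp N v = v := by
  funext c
  have hpow : ∀ m : ℕ, v (ModularGroup.T ^ m • c) = v c := by
    intro m
    induction m with
    | zero => simp
    | succ m ih =>
      rw [pow_succ', mul_smul]
      exact (hv _).trans ih
  rw [avgOp_apply, Finset.sum_congr rfl fun m _ => hpow m]
  have hN : (N : ℂ) ≠ 0 := Nat.cast_ne_zero.mpr (NeZero.ne N)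
  simp only [Finset.sum_const, Finset.card_range, nsmul_eq_mul]
  field_simp

/-- **G2', abstract form.** If the jets of the family span everything, the limit vector is the
`T`-average of the jet vector and is `T`-invariant, then the limit vectors span the `T`-invariants. -/
theorem span_limVec_of_span_jetVec
    (hspan : Submodule.span ℂ (Set.range fun x => jetVec (F x)) = ⊤)
    (havg : ∀ (x c : X N), (N : ℂ)⁻¹ * ∑ m ∈ range N, jetVec (F x) (ModularGroup.T ^ m • c) =
      limVec (F x) c)
    (hinv : ∀ x, limVec (F x) ∈ invOf N ModularGroup.T) :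
    Submodule.span ℂ (Set.range fun x => limVec (F x)) = invOf N ModularGroup.T := by
  apply le_antisymm
  · refine Submodule.span_le.mpr ?_
    rintro _ ⟨x, rfl⟩
    exact hinv x
  · intro v hv
    have hP : ∀ x, avgOp N (jetVec (F x)) = limVec (F x) := fun x => funext fun c => havg x c
    have hmem : v ∈ Submodule.span ℂ (Set.range fun x => jetVec (F x)) := by
      rw [hspan]; exact Submodule.mem_top
    have h1 : avgOp N v ∈ Submodule.map (avgOp N)
        (Submodule.span ℂ (Set.range fun x => jetVec (F x))) := Submodule.mem_map_of_mem hmem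
    rw [Submodule.map_span, ← Set.range_comp] at h1
    rw [avgOp_of_mem_invOf hv] at h1
    have hrange : (⇑(avgOp N) ∘ fun x => jetVec (F x)) = fun x => limVec (F x) :=
      funext fun x => hP x
    rwa [hrange] at h1

end Fermat.Agent.S20.H82
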